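/-
S16, layer R, part 1: pure ring theory.
If `π : A →+* B` and `ε : A →+* ℤ` are surjective then
`B ⧸ π(ker ε)` and `ℤ ⧸ ε(ker π)` have the same cardinality.
-/
import Mathlib

set_option autoImplicit false

namespace Fermat.Agent.S16.R

variable {A B C : Type*} [CommRing A] [CommRing B] [CommRing C]

/-- Both quotients are `A ⧸ (ker π ⊔ ker ε)`. -/
theorem natCard_quotient_map_ker_eq (π : A →+* B) (ε : A →+* C)
    (hπ : Function.Surjective π) (hε : Function.Surjective ε) :
    Nat.card (B ⧸ Ideal.map π (RingHom.ker ε)) = Nat.card (C ⧸ Ideal.map ε (RingHom.ker π)) := by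
  set f1 : A →+* B ⧸ Ideal.map π (RingHom.ker ε) := (Ideal.Quotient.mk _).comp π with hf1
  set f2 : A →+* C ⧸ Ideal.map ε (RingHom.ker π) := (Ideal.Quotient.mk _).comp ε with hf2
  have s1 : Function.Surjective f1 := Ideal.Quotient.mk_surjective.comp hπ
  have s2 : Function.Surjective f2 := Ideal.Quotient.mk_surjective.comp hε
  have k1 : RingHom.ker f1 = RingHom.ker ε ⊔ RingHom.ker π := by
    rw [hf1, ← RingHom.comap_ker, Ideal.mk_ker, Ideal.comap_map_of_surjective π hπ]
    rfl
  have k2 : RingHom.ker f2 = RingHom.ker ε ⊔ RingHom.ker π := by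
    rw [hf2, ← RingHom.comap_ker, Ideal.mk_ker, Ideal.comap_map_of_surjective ε hε, sup_comm]
    rfl
  have e1 := RingHom.quotientKerEquivOfSurjective s1
  have e2 := RingHom.quotientKerEquivOfSurjective s2
  rw [← Nat.card_congr e1.toEquiv, ← Nat.card_congr e2.toEquiv, k1, k2]

theorem natCard_int_quotient_span (n : ℕ) :
    Nat.card (ℤ ⧸ Ideal.span {(n : ℤ)}) = n := by
  rw [Nat.card_congr (Int.quotientSpanNatEquivZMod n).toEquiv, Nat.card_zmod]

/-- every ideal of `ℤ` is generated by a natural number -/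
theorem exists_nat_span_eq (J : Ideal ℤ) : ∃ m : ℕ, J = Ideal.span {(m : ℤ)} := by
  obtain ⟨g, hg⟩ := (IsPrincipalIdealRing.principal J).principal
  refine ⟨g.natAbs, ?_⟩
  rw [hg, Int.span_natAbs]

end Fermat.Agent.S16.R
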