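/-
S16, layer R, part 3: a perfect pairing criterion over `ℤ`.
-/
import Mathlib

set_option autoImplicit false

namespace Fermat.Agent.S16.R

/-- If a bilinear pairing `T × L → ℤ` of finite free `ℤ`-modules is nondegenerate on both sides and
`L` is saturated with respect to it, then `L → Hom(T, ℤ)` is onto. -/
theorem flip_surjective_of_injective_of_saturated
    {T L : Type*} [AddCommGroup T] [AddCommGroup L]
    [Module.Free ℤ T] [Module.Finite ℤ T] [Module.Free ℤ L] [Module.Finite ℤ L]
    (B : T →ₗ[ℤ] L →ₗ[ℤ] ℤ) (h1 : Function.Injective B) (h2 : Function.Injective B.flip)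
    (sat : ∀ N : ℤ, N ≠ 0 → ∀ f : L, (∀ t, N ∣ B t f) → ∃ g : L, f = N • g) :
    Function.Surjective B.flip := by
  have r1 : Module.finrank ℤ L ≤ Module.finrank ℤ T := by
    have := LinearMap.finrank_le_finrank_of_injective h2
    rwa [Module.finrank_linearMap_self] at this
  have r2 : Module.finrank ℤ T ≤ Module.finrank ℤ L := by
    have := LinearMap.finrank_le_finrank_of_injective h1
    rwa [Module.finrank_linearMap_self] at this
  have r3 : Module.finrank ℤ (LinearMap.range B.flip) = Module.finrank ℤ (T →ₗ[ℤ] ℤ) := by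
    rw [LinearMap.finrank_range_of_inj h2, Module.finrank_linearMap_self]
    exact le_antisymm r1 r2
  have r4 : Module.finrank ℤ ((T →ₗ[ℤ] ℤ) ⧸ LinearMap.range B.flip) = 0 := by
    have := Submodule.finrank_quotient_add_finrank (LinearMap.range B.flip)
    omega
  have tors : Module.IsTorsion ℤ ((T →ₗ[ℤ] ℤ) ⧸ LinearMap.range B.flip) :=
    Module.finrank_eq_zero_iff_isTorsion.mp r4
  intro lam
  obtain ⟨⟨N, hN⟩, hNlam⟩ := @tors (Submodule.Quotient.mk lam)
  have hN0 : N ≠ 0 := nonZeroDivisors.ne_zero hN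
  have hmem : N • lam ∈ LinearMap.range B.flip := by
    rw [← Submodule.Quotient.mk_eq_zero, Submodule.Quotient.mk_smul]
    exact hNlam
  obtain ⟨f, hf⟩ := hmem
  obtain ⟨g, rfl⟩ := sat N hN0 f (fun t => by
    have := LinearMap.congr_fun hf t
    rw [LinearMap.flip_apply] at this
    rw [this]
    exact ⟨lam t, by simp⟩)
  refine ⟨g, ?_⟩
  rw [map_smul] at hf
  exact smul_right_injective _ hN0 hf

end Fermat.Agent.S16.R
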