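/-
S16, layer R, part 2: the coefficients `sigmaP p k` (sum of the divisors of `k` prime to `p`)
of the weight two Eisenstein series of level `p`, and their Hecke recursions.
-/
import Mathlib

set_option autoImplicit false

namespace Fermat.Agent.S16.R

/-- sum of the divisors of `k` which are not divisible by `p` -/
def sigmaP (p k : ℕ) : ℤ := ∑ d ∈ k.divisors with ¬ p ∣ d, (d : ℤ)

theorem sigmaP_zero (p : ℕ) : sigmaP p 0 = 0 := by
  simp [sigmaP]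

theorem sigmaP_one {p : ℕ} (hp : p.Prime) : sigmaP p 1 = 1 := by
  have h : ¬ p ∣ 1 := hp.one_lt.ne' ∘ Nat.dvd_one.mp
  simp [sigmaP, Finset.sum_filter, h]

theorem sigmaP_mul_self {p : ℕ} (hp : p.Prime) (k : ℕ) : sigmaP p (p * k) = sigmaP p k := by
  unfold sigmaP
  congr 1
  ext d
  simp only [Finset.mem_filter, Nat.mem_divisors, ne_eq, mul_eq_zero, hp.ne_zero, false_or]
  constructor
  · rintro ⟨⟨h1, h2⟩, h3⟩
    exact ⟨⟨(((Nat.Prime.coprime_iff_not_dvd hp).mpr h3).symm).dvd_of_dvd_mul_left h1, h2⟩, h3⟩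
  · rintro ⟨⟨h1, h2⟩, h3⟩
    exact ⟨⟨h1.mul_left p, h2⟩, h3⟩

theorem sigmaP_mul_prime {p ℓ : ℕ} (hp : p.Prime) (hℓ : ℓ.Prime) (hne : ℓ ≠ p) (k : ℕ) :
    sigmaP p (ℓ * k) + (ℓ : ℤ) * (if ℓ ∣ k then sigmaP p (k / ℓ) else 0) =
      (1 + (ℓ : ℤ)) * sigmaP p k := by
  classical
  have hpl : ∀ d : ℕ, p ∣ ℓ * d ↔ p ∣ d := by
    intro d
    constructor
    · intro h
      rcases (Nat.Prime.dvd_mul hp).mp h with h | h
      · exact absurd ((Nat.prime_dvd_prime_iff_eq hp hℓ).mp h).symm hne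
      · exact h
    · intro h
      exact h.mul_left ℓ
  have hinj : Function.Injective (fun d : ℕ => ℓ * d) := fun a b h =>
    Nat.eq_of_mul_eq_mul_left hℓ.pos h
  set D : ℕ → Finset ℕ := fun k => k.divisors.filter (fun d => ¬ p ∣ d) with hD
  have hsum : ∀ j : ℕ, ∑ d ∈ (D j).image (fun d : ℕ => ℓ * d), (d : ℤ) = (ℓ : ℤ) * sigmaP p j := by
    intro j
    rw [Finset.sum_image (fun a _ b _ h => hinj h), sigmaP, Finset.mul_sum]
    refine Finset.sum_congr rfl fun d _ => ?_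
    push_cast
    ring
  have hunion : D (ℓ * k) = D k ∪ (D k).image (fun d : ℕ => ℓ * d) := by
    ext d
    simp only [hD, Finset.mem_union, Finset.mem_image, Finset.mem_filter, Nat.mem_divisors, ne_eq,
      mul_eq_zero, hℓ.ne_zero, false_or]
    constructor
    · rintro ⟨⟨h1, h2⟩, h3⟩
      by_cases hd : ℓ ∣ d
      · obtain ⟨e, rfl⟩ := hd
        right
        exact ⟨e, ⟨⟨Nat.dvd_of_mul_dvd_mul_left hℓ.pos h1, h2⟩, fun h => h3 ((hpl e).mpr h)⟩, rfl⟩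
      · left
        exact ⟨⟨(((Nat.Prime.coprime_iff_not_dvd hℓ).mpr hd).symm).dvd_of_dvd_mul_left h1, h2⟩, h3⟩
    · rintro (⟨⟨h1, h2⟩, h3⟩ | ⟨e, ⟨⟨h1, h2⟩, h3⟩, rfl⟩)
      · exact ⟨⟨h1.mul_left ℓ, h2⟩, h3⟩
      · exact ⟨⟨Nat.mul_dvd_mul_left ℓ h1, h2⟩, fun h => h3 ((hpl e).mp h)⟩
  have hinter : D k ∩ (D k).image (fun d : ℕ => ℓ * d) =
      if ℓ ∣ k then (D (k / ℓ)).image (fun d : ℕ => ℓ * d) else ∅ := by
    split_ifs with hk
    · obtain ⟨j, rfl⟩ := hk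
      rw [Nat.mul_div_cancel_left j hℓ.pos]
      ext d
      simp only [hD, Finset.mem_inter, Finset.mem_image, Finset.mem_filter, Nat.mem_divisors, ne_eq,
        mul_eq_zero, hℓ.ne_zero, false_or]
      constructor
      · rintro ⟨⟨⟨h1, h2⟩, h3⟩, ⟨e, ⟨⟨h4, _⟩, h6⟩, rfl⟩⟩
        exact ⟨e, ⟨⟨Nat.dvd_of_mul_dvd_mul_left hℓ.pos h1, h2⟩, h6⟩, rfl⟩
      · rintro ⟨e, ⟨⟨h1, h2⟩, h3⟩, rfl⟩
        exact ⟨⟨⟨Nat.mul_dvd_mul_left ℓ h1, h2⟩, fun h => h3 ((hpl e).mp h)⟩,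
          ⟨e, ⟨⟨h1.mul_left ℓ, h2⟩, h3⟩, rfl⟩⟩
    · ext d
      simp only [hD, Finset.mem_inter, Finset.mem_image, Finset.mem_filter, Nat.mem_divisors, ne_eq,
        Finset.notMem_empty, iff_false, not_and, not_exists]
      rintro ⟨⟨h1, _⟩, _⟩ e _ rfl
      exact hk ((Dvd.intro e rfl).trans h1)
  have key := Finset.sum_union_inter (s₁ := D k) (s₂ := (D k).image (fun d : ℕ => ℓ * d))
    (f := fun d : ℕ => (d : ℤ))
  rw [← hunion, hinter, hsum] at key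
  have h1 : ∑ d ∈ D (ℓ * k), (d : ℤ) = sigmaP p (ℓ * k) := rfl
  have h2 : ∑ d ∈ D k, (d : ℤ) = sigmaP p k := rfl
  rw [h1, h2] at key
  split_ifs at key ⊢ with hk
  · rw [hsum] at key
    rw [key]
    ring
  · rw [Finset.sum_empty] at key
    rw [mul_zero, key]
    ring

end Fermat.Agent.S16.R
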