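/-
S16, layer R, part 4: abstract Hecke lattices.

`L` is a finite free `ℤ`-module with an action `act` of the polynomial ring
`P = ℤ[X_ℓ : ℓ prime]` and coefficient functionals `a k : L → ℤ` satisfying the
usual weight two Hecke recursions of level `p`.
-/
import Mathlib
import Fermat.Agent.S16.R.SigmaP
import Fermat.Agent.S16.R.CardAlgebra
import Fermat.Agent.S16.R.Pairing

set_option autoImplicit false

namespace Fermat.Agent.S16.R

open MvPolynomial

/-- the abstract Hecke polynomial ring -/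
local notation "PP" => MvPolynomial Nat.Primes ℤ

/-- A family `c t k` (`t` a Hecke polynomial, `k` an index) obeying the weight two recursions. -/
structure IsHeckeSystem (p : ℕ) {A : Type*} [AddCommGroup A] (c : PP → ℕ → A) : Prop where
  hT : ∀ ℓ : Nat.Primes, (ℓ : ℕ) ≠ p → ∀ (t : PP) (k : ℕ),
    c (X ℓ * t) k = c t (ℓ * k) + (ℓ : ℕ) • (if (ℓ : ℕ) ∣ k then c t (k / ℓ) else 0)
  hU : ∀ ℓ : Nat.Primes, (ℓ : ℕ) = p → ∀ (t : PP) (k : ℕ), c (X ℓ * t) k = c t (ℓ * k)

/-- Two Hecke systems which agree at the index `1` agree at all positive indices. -/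
theorem IsHeckeSystem.eq_of_eq_one {p : ℕ} {A : Type*} [AddCommGroup A] {c c' : PP → ℕ → A}
    (h : IsHeckeSystem p c) (h' : IsHeckeSystem p c') (h1 : ∀ t, c t 1 = c' t 1) :
    ∀ k, 1 ≤ k → ∀ t, c t k = c' t k := by
  intro k
  induction k using Nat.strong_induction_on with
  | _ k ih =>
    intro hk t
    rcases Nat.eq_or_lt_of_le hk with rfl | hk1
    · exact h1 t
    · obtain ⟨j, hj⟩ := Nat.minFac_dvd k
      have hpr : (k.minFac).Prime := Nat.minFac_prime hk1.ne'
      have hjpos : 1 ≤ j := by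
        rcases Nat.eq_zero_or_pos j with rfl | hj0
        · omega
        · exact hj0
      have hjlt : j < k := by
        have := hpr.two_le
        nlinarith
      set ℓ : Nat.Primes := ⟨k.minFac, hpr⟩ with hℓdef
      have hkℓ : k = (ℓ : ℕ) * j := hj
      by_cases hℓ : (ℓ : ℕ) = p
      · have e1 := h.hU ℓ hℓ t j
        have e2 := h'.hU ℓ hℓ t j
        rw [hkℓ, ← e1, ← e2]
        exact ih j hjlt hjpos _
      · have e1 := h.hT ℓ hℓ t j
        have e2 := h'.hT ℓ hℓ t j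
        have e3 := ih j hjlt hjpos (X ℓ * t)
        have e4 : (if (ℓ : ℕ) ∣ j then c t (j / ℓ) else 0) =
            (if (ℓ : ℕ) ∣ j then c' t (j / ℓ) else 0) := by
          split_ifs with hd
          · refine ih _ ?_ ?_ t
            · exact lt_of_le_of_lt (Nat.div_le_self _ _) hjlt
            · exact Nat.div_pos (Nat.le_of_dvd hjpos hd) hpr.pos
          · rfl
        rw [e1, e2, e4] at e3
        rw [hkℓ]
        exact add_right_cancel e3

section Setting

variable {p : ℕ} {L : Type*} [AddCommGroup L]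
  (act : PP →+* Module.End ℤ L) (a : ℕ → L →ₗ[ℤ] ℤ) (eis : PP →+* ℤ)

/-- the Hecke recursions for the coefficient functionals -/
structure IsHeckeLattice (p : ℕ) {L : Type*} [AddCommGroup L]
    (act : PP →+* Module.End ℤ L) (a : ℕ → L →ₗ[ℤ] ℤ) : Prop where
  hT : ∀ ℓ : Nat.Primes, (ℓ : ℕ) ≠ p → ∀ (f : L) (k : ℕ),
    a k (act (X ℓ) f) = a (ℓ * k) f + (ℓ : ℤ) * (if (ℓ : ℕ) ∣ k then a (k / ℓ) f else 0)
  hU : ∀ ℓ : Nat.Primes, (ℓ : ℕ) = p → ∀ (f : L) (k : ℕ), a k (act (X ℓ) f) = a (ℓ * k) f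
  inj : ∀ f : L, (∀ k, 1 ≤ k → a k f = 0) → f = 0
  sat : ∀ N : ℕ, N ≠ 0 → ∀ f : L, (∀ k, 1 ≤ k → (N : ℤ) ∣ a k f) → ∃ g : L, f = (N : ℤ) • g

/-- the Eisenstein eigensystem -/
structure IsEisSystem (p : ℕ) (eis : PP →+* ℤ) : Prop where
  hT : ∀ ℓ : Nat.Primes, (ℓ : ℕ) ≠ p → eis (X ℓ) = 1 + (ℓ : ℕ)
  hU : ∀ ℓ : Nat.Primes, (ℓ : ℕ) = p → eis (X ℓ) = 1

variable {act a eis}

theorem IsHeckeLattice.isHeckeSystem (H : IsHeckeLattice p act a) {A : Type*} [AddCommGroup A]
    (φ : ℤ →+ A) (f : L) : IsHeckeSystem p (fun t k => φ (a k (act t f))) where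
  hT ℓ hℓ t k := by
    simp only [map_mul, Module.End.mul_apply]
    rw [H.hT ℓ hℓ, map_add, ← nsmul_eq_mul, map_nsmul]
    split_ifs <;> simp
  hU ℓ hℓ t k := by
    simp only [map_mul, Module.End.mul_apply]
    rw [H.hU ℓ hℓ]

theorem IsEisSystem.isHeckeSystem (hp : p.Prime) (E : IsEisSystem p eis) {A : Type*}
    [AddCommGroup A] (φ : ℤ →+ A) (c : ℤ) :
    IsHeckeSystem p (fun t k => φ (c * eis t * sigmaP p k)) where
  hT ℓ hℓ t k := by
    have key := sigmaP_mul_prime hp ℓ.2 hℓ k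
    have : c * eis (X ℓ * t) * sigmaP p k = c * eis t * sigmaP p (ℓ * k) +
        (ℓ : ℕ) • (if (ℓ : ℕ) ∣ k then c * eis t * sigmaP p (k / ℓ) else 0) := by
      rw [map_mul, E.hT ℓ hℓ, nsmul_eq_mul]
      have e : c * ((1 + ((ℓ : ℕ) : ℤ)) * eis t) * sigmaP p k =
          c * eis t * ((1 + ((ℓ : ℕ) : ℤ)) * sigmaP p k) := by ring
      rw [e, ← key]
      split_ifs <;> ring
    rw [this, map_add, map_nsmul]
    split_ifs <;> simp
  hU ℓ hℓ t k := by
    rw [map_mul eis, E.hU ℓ hℓ, one_mul, hℓ, sigmaP_mul_self hp]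

/-- **Lower reduction.** A form congruent to `c` times the Eisenstein series modulo `n` forces
`n ∣ c * eis t` for every `t` acting as zero. -/
theorem IsHeckeLattice.congr_of_congr (hp : p.Prime) (H : IsHeckeLattice p act a)
    (E : IsEisSystem p eis) (n : ℕ) (c : ℤ) (f : L)
    (hf : ∀ k, 1 ≤ k → (n : ℤ) ∣ a k f - c * sigmaP p k) (t : PP) :
    ∀ k, 1 ≤ k → (n : ℤ) ∣ a k (act t f) - c * eis t * sigmaP p k := by
  induction t using MvPolynomial.induction_on with
  | C z =>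
    intro k hk
    have h1 : act (C z) = z • (1 : Module.End ℤ L) := by
      have : (C z : PP) = z • (1 : PP) := by
        rw [zsmul_eq_mul, mul_one]
        simp
      rw [this, map_zsmul, map_one]
    have h2 : eis (C z) = z := by
      have : (C z : PP) = ((z : ℤ) : PP) := by simp
      rw [this, map_intCast]
      rfl
    rw [h1, h2]
    simp only [LinearMap.smul_apply, Module.End.one_apply, map_smul, smul_eq_mul]
    obtain ⟨w, hw⟩ := hf k hk
    exact ⟨z * w, by linear_combination z * hw⟩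
  | add s t hs ht =>
    intro k hk
    obtain ⟨u, hu⟩ := hs k hk
    obtain ⟨v, hv⟩ := ht k hk
    refine ⟨u + v, ?_⟩
    simp only [map_add, LinearMap.add_apply]
    linear_combination hu + hv
  | mul_X t ℓ ht =>
    intro k hk
    have hcomm : act (t * X ℓ) f = act (X ℓ) (act t f) := by
      rw [mul_comm, map_mul, Module.End.mul_apply]
    rw [hcomm, map_mul]
    by_cases hℓ : (ℓ : ℕ) = p
    · have e : sigmaP p k = sigmaP p (ℓ * k) := by rw [hℓ, sigmaP_mul_self hp]
      rw [H.hU ℓ hℓ, E.hU ℓ hℓ, mul_one, e]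
      exact ht _ (Nat.mul_pos ℓ.2.pos hk)
    · rw [H.hT ℓ hℓ, E.hT ℓ hℓ]
      have key := sigmaP_mul_prime hp ℓ.2 hℓ k
      obtain ⟨u, hu⟩ := ht _ (Nat.mul_pos ℓ.2.pos hk)
      split_ifs at key ⊢ with hd
      · obtain ⟨v, hv⟩ := ht (k / ℓ) (Nat.div_pos (Nat.le_of_dvd hk hd) ℓ.2.pos)
        refine ⟨u + ℓ * v, ?_⟩
        linear_combination hu + (ℓ : ℤ) * hv + c * eis t * key
      · refine ⟨u, ?_⟩
        linear_combination hu + c * eis t * key

theorem IsHeckeLattice.dvd_eis_of_act_eq_zero (hp : p.Prime) (H : IsHeckeLattice p act a)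
    (E : IsEisSystem p eis) (n : ℕ) (c : ℤ) (hc : IsCoprime c (n : ℤ)) (f : L)
    (hf : ∀ k, 1 ≤ k → (n : ℤ) ∣ a k f - c * sigmaP p k) (t : PP) (ht : act t = 0) :
    (n : ℤ) ∣ eis t := by
  have h := H.congr_of_congr hp E n c f hf t 1 le_rfl
  rw [ht, LinearMap.zero_apply, map_zero, sigmaP_one hp, mul_one, zero_sub, dvd_neg] at h
  exact hc.symm.dvd_of_dvd_mul_left h

end Setting

end Fermat.Agent.S16.R
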