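/-
S16, layer R, part 5: the `a_1`-duality between an abstract Hecke lattice and its Hecke ring,
and the computation of the Eisenstein index ideal from a lower and an upper bound.
-/
import Mathlib
import Fermat.Agent.S16.R.Abstract

set_option autoImplicit false

namespace Fermat.Agent.S16.R

open MvPolynomial

local notation "PP" => MvPolynomial Nat.Primes ℤ

theorem isHeckeSystem_zero (p : ℕ) (A : Type*) [AddCommGroup A] :
    IsHeckeSystem p (fun (_ : PP) (_ : ℕ) => (0 : A)) where
  hT _ _ _ _ := by simp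
  hU _ _ _ _ := rfl

variable {p : ℕ} {L : Type*} [AddCommGroup L]
  {act : PP →+* Module.End ℤ L} {a : ℕ → L →ₗ[ℤ] ℤ} {eis : PP →+* ℤ}

/-- divisibility of all `a_1 (t f)` propagates to all coefficients -/
theorem IsHeckeLattice.dvd_of_dvd_one (H : IsHeckeLattice p act a) (N : ℕ) (f : L)
    (h : ∀ t, (N : ℤ) ∣ a 1 (act t f)) : ∀ k, 1 ≤ k → (N : ℤ) ∣ a k f := by
  intro k hk
  have key := (H.isHeckeSystem (Int.castAddHom (ZMod N)) f).eq_of_eq_one
    (isHeckeSystem_zero p (ZMod N))
    (fun t => (ZMod.intCast_zmod_eq_zero_iff_dvd _ _).mpr (h t)) k hk 1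
  rw [map_one, Module.End.one_apply] at key
  exact (ZMod.intCast_zmod_eq_zero_iff_dvd _ _).mp key

theorem IsHeckeLattice.eq_zero_of_one (H : IsHeckeLattice p act a) (f : L)
    (h : ∀ t, a 1 (act t f) = 0) : f = 0 := by
  refine H.inj f fun k hk => ?_
  have := H.dvd_of_dvd_one 0 f (fun t => by rw [h t]; exact dvd_zero _) k hk
  simpa using this

/-- congruence to the Eisenstein system at the index one propagates to all coefficients -/
theorem IsHeckeLattice.congr_sigmaP_of_one (hp : p.Prime) (H : IsHeckeLattice p act a)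
    (E : IsEisSystem p eis) (m : ℕ) (f : L)
    (h : ∀ t, (m : ℤ) ∣ a 1 (act t f) - eis t) : ∀ k, 1 ≤ k → (m : ℤ) ∣ a k f - sigmaP p k := by
  intro k hk
  have key := (H.isHeckeSystem (Int.castAddHom (ZMod m)) f).eq_of_eq_one
    (E.isHeckeSystem hp (Int.castAddHom (ZMod m)) 1)
    (fun t => by
      rw [sigmaP_one hp, one_mul, mul_one]
      have := (ZMod.intCast_zmod_eq_zero_iff_dvd _ _).mpr (h t)
      rw [Int.cast_sub, sub_eq_zero] at this
      exact this) k hk 1
  rw [map_one, map_one, Module.End.one_apply, one_mul, one_mul] at key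
  rw [← ZMod.intCast_zmod_eq_zero_iff_dvd, Int.cast_sub, sub_eq_zero]
  exact key

/-- the image of the Hecke polynomial ring in `End L`, as a `ℤ`-module -/
noncomputable def heckeImage (act : PP →+* Module.End ℤ L) : Submodule ℤ (Module.End ℤ L) :=
  LinearMap.range act.toIntAlgHom.toLinearMap

theorem act_mem_heckeImage (act : PP →+* Module.End ℤ L) (t : PP) : act t ∈ heckeImage act :=
  ⟨t, rfl⟩

/-- the `a_1`-pairing -/
noncomputable def pairing (act : PP →+* Module.End ℤ L) (a : ℕ → L →ₗ[ℤ] ℤ) :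
    heckeImage act →ₗ[ℤ] L →ₗ[ℤ] ℤ :=
  (LinearMap.llcomp ℤ L L ℤ (a 1)).comp (heckeImage act).subtype

theorem pairing_apply (t : heckeImage act) (f : L) : pairing act a t f = a 1 (t.1 f) := rfl

theorem IsHeckeLattice.pairing_flip_injective (H : IsHeckeLattice p act a) :
    Function.Injective (pairing act a).flip := by
  rw [injective_iff_map_eq_zero]
  intro f hf
  refine H.eq_zero_of_one f fun t => ?_
  exact LinearMap.congr_fun hf ⟨act t, act_mem_heckeImage act t⟩

theorem IsHeckeLattice.pairing_injective (H : IsHeckeLattice p act a) :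
    Function.Injective (pairing act a) := by
  rw [injective_iff_map_eq_zero]
  rintro ⟨_, s, rfl⟩ hs
  refine Subtype.ext (LinearMap.ext fun f => ?_)
  change act s f = 0
  refine H.eq_zero_of_one _ fun t => ?_
  have h1 : act t (act s f) = act s (act t f) := by
    rw [← Module.End.mul_apply, ← Module.End.mul_apply, ← map_mul, ← map_mul, mul_comm]
  rw [h1]
  exact LinearMap.congr_fun hs (act t f)

variable [Module.Free ℤ L] [Module.Finite ℤ L]

instance : Module.Finite ℤ (heckeImage act) := inferInstance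
instance : Module.Free ℤ (heckeImage act) := inferInstance

theorem IsHeckeLattice.pairing_flip_surjective (H : IsHeckeLattice p act a) :
    Function.Surjective (pairing act a).flip := by
  refine flip_surjective_of_injective_of_saturated _ H.pairing_injective H.pairing_flip_injective ?_
  intro N hN f hf
  have hN' : N.natAbs ≠ 0 := Int.natAbs_ne_zero.mpr hN
  obtain ⟨g, hg⟩ := H.sat N.natAbs hN' f (H.dvd_of_dvd_one _ f fun t =>
    Int.natAbs_dvd.mpr (hf ⟨act t, act_mem_heckeImage act t⟩))
  rcases Int.natAbs_eq N with h | h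
  · exact ⟨g, by rw [hg, ← h]⟩
  · refine ⟨-g, ?_⟩
    have h' : ((N.natAbs : ℕ) : ℤ) = -N := by omega
    rw [hg, smul_neg, ← neg_smul, h']

/-- **Duality.** If `m` divides `eis t` for all `t` acting as zero, there is an element of the
lattice which is congruent to the Eisenstein series modulo `m`. -/
theorem IsHeckeLattice.exists_congr_sigmaP (hp : p.Prime) (H : IsHeckeLattice p act a)
    (E : IsEisSystem p eis) (m : ℕ) (hm : ∀ t, act t = 0 → (m : ℤ) ∣ eis t) :
    ∃ f : L, ∀ k, 1 ≤ k → (m : ℤ) ∣ a k f - sigmaP p k := by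
  set actL : PP →ₗ[ℤ] Module.End ℤ L := act.toIntAlgHom.toLinearMap with hactL
  set e : PP →ₗ[ℤ] ZMod m :=
    ((Int.castAddHom (ZMod m)).comp eis.toAddMonoidHom).toIntLinearMap with he
  have hker : LinearMap.ker actL ≤ LinearMap.ker e := by
    intro t ht
    rw [LinearMap.mem_ker] at ht ⊢
    exact (ZMod.intCast_zmod_eq_zero_iff_dvd _ _).mpr (hm t ht)
  set g : heckeImage act →ₗ[ℤ] ZMod m :=
    ((LinearMap.ker actL).liftQ e hker).comp actL.quotKerEquivRange.symm.toLinearMap with hg
  have hgt : ∀ t : PP, g ⟨act t, act_mem_heckeImage act t⟩ = ((eis t : ℤ) : ZMod m) := by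
    intro t
    have : actL.quotKerEquivRange.symm ⟨actL t, LinearMap.mem_range_self actL t⟩ =
        (LinearMap.ker actL).mkQ t := LinearMap.quotKerEquivRange_symm_apply_image actL t _
    change ((LinearMap.ker actL).liftQ e hker)
      (actL.quotKerEquivRange.symm ⟨actL t, LinearMap.mem_range_self actL t⟩) = _
    rw [this]
    rfl
  obtain ⟨lam, hlam⟩ := Module.projective_lifting_property
    ((Int.castAddHom (ZMod m)).toIntLinearMap) g ZMod.intCast_surjective
  obtain ⟨f, hf⟩ := H.pairing_flip_surjective lam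
  refine ⟨f, H.congr_sigmaP_of_one hp E m f fun t => ?_⟩
  have h1 : a 1 (act t f) = lam ⟨act t, act_mem_heckeImage act t⟩ :=
    LinearMap.congr_fun hf ⟨act t, act_mem_heckeImage act t⟩
  have h2 : ((lam ⟨act t, act_mem_heckeImage act t⟩ : ℤ) : ZMod m) = ((eis t : ℤ) : ZMod m) := by
    rw [← hgt t, ← hlam]
    rfl
  rw [← ZMod.intCast_zmod_eq_zero_iff_dvd, Int.cast_sub, sub_eq_zero, h1, h2]

/-- **The index ideal.** -/
theorem IsHeckeLattice.map_eis_ker_eq (hp : p.Prime) (H : IsHeckeLattice p act a)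
    (E : IsEisSystem p eis) (n : ℕ)
    (lower : ∀ t, act t = 0 → (n : ℤ) ∣ eis t)
    (upper : ∀ (m : ℕ) (f : L), (∀ k, 1 ≤ k → (m : ℤ) ∣ a k f - sigmaP p k) → m ∣ n) :
    Ideal.map eis (RingHom.ker act) = Ideal.span {(n : ℤ)} := by
  obtain ⟨m, hm⟩ := exists_nat_span_eq (Ideal.map eis (RingHom.ker act))
  have h1 : ∀ t, act t = 0 → (m : ℤ) ∣ eis t := by
    intro t ht
    rw [← Ideal.mem_span_singleton, ← hm]
    exact Ideal.mem_map_of_mem eis (RingHom.mem_ker.mpr ht)
  obtain ⟨f, hf⟩ := H.exists_congr_sigmaP hp E m h1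
  have h2 : m ∣ n := upper m f hf
  have h3 : Ideal.map eis (RingHom.ker act) ≤ Ideal.span {(n : ℤ)} := by
    rw [Ideal.map_le_iff_le_comap]
    intro t ht
    rw [Ideal.mem_comap, Ideal.mem_span_singleton]
    exact lower t (RingHom.mem_ker.mp ht)
  have h4 : n ∣ m := by
    have : (m : ℤ) ∈ Ideal.span {(n : ℤ)} := h3 (hm ▸ Ideal.mem_span_singleton_self _)
    exact Int.natCast_dvd_natCast.mp (Ideal.mem_span_singleton.mp this)
  rw [hm, Nat.dvd_antisymm h2 h4]

end Fermat.Agent.S16.R
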