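/-
S16, layer R, part 6: the integral lattice of weight two cusp forms of prime level `p` is an
abstract Hecke lattice; reduction of the frozen statement S16 to a lower and an upper bound.
-/
import Mathlib
import Fermat.Agent.S49.Basic
import Fermat.Agent.S16.R.Duality
import Fermat.Prelude.Def_CuspForm_HeckeLocal
import Fermat.Prelude.Def_CuspForm_HeckeEvalForms
import Fermat.Prelude.Def_HeckeGalois_EichlerShimura
import Fermat.Prelude.Def_ModularCurve_ModularUnit

set_option autoImplicit false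

open CuspForm ModularCurve ModularFormClass CongruenceSubgroup

namespace Fermat.Agent.S16.R

theorem heckeEvalForms_surjective (N : ℕ) [NeZero N] (k : ℤ) :
    Function.Surjective (heckeEvalForms N k) := by
  have h : heckeAlgebra N k ∅ ≤
      ((heckeAlgebra N k ∅).val.comp (MvPolynomial.aeval (heckeFormsGen N k))).range := by
    apply Algebra.adjoin_le
    rintro T (⟨ℓ, hℓ, hℓN, -, rfl⟩ | ⟨q, hqN, hq, -, rfl⟩)
    · refine ⟨MvPolynomial.X ⟨ℓ, hℓ⟩, ?_⟩
      exact congrArg Subtype.val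
        (heckeEvalForms_heckeGen_of_not_dvd (N := N) (k := k) (ℓ := ⟨ℓ, hℓ⟩) hℓN)
    · refine ⟨MvPolynomial.X ⟨q, hq⟩, ?_⟩
      exact congrArg Subtype.val
        (heckeEvalForms_heckeGen_of_dvd (N := N) (k := k) (q := ⟨q, hq⟩) hqN)
  intro x
  obtain ⟨t, ht⟩ := h x.2
  exact ⟨t, Subtype.ext ht⟩

variable (p : ℕ) [Fact p.Prime]

/-- the map of the frozen statement -/
noncomputable def piL : HeckeAlg →+* ↥(heckeLatticeAlgebra p ∅) :=
  (latticeRestrictHom p ∅).toRingHom.comp (heckeEvalForms p 2)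

/-- the action of the Hecke polynomial ring on the integral lattice -/
noncomputable def actL : HeckeAlg →+* Module.End ℤ ↥(intLattice p 2) :=
  (latticeActionHom p ∅).comp (heckeEvalForms p 2)

/-- the Eisenstein eigencharacter -/
noncomputable def eisL : HeckeAlg →+* ℤ :=
  (MvPolynomial.aeval (R := ℤ) (eisensteinSystem p)).toRingHom

theorem coe_piL (t : HeckeAlg) :
    ((piL p t : ↥(heckeLatticeAlgebra p ∅)) : Module.End ℤ ↥(intLattice p 2)) = actL p t := rfl

theorem coe_actL_apply (t : HeckeAlg) (f : ↥(intLattice p 2)) :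
    ((actL p t f : ↥(intLattice p 2)) : CuspForm (Gamma0 p) 2) =
      (heckeEvalForms p 2 t : Module.End ℂ (CuspForm (Gamma0 p) 2)) f.1 := rfl

theorem piL_surjective : Function.Surjective (piL p) :=
  (latticeRestrictHom_surjective p ∅).comp (heckeEvalForms_surjective p 2)

theorem eisL_surjective : Function.Surjective (eisL p) := fun z =>
  ⟨MvPolynomial.C z, by simp [eisL]⟩

theorem ker_eisL : RingHom.ker (eisL p) = eisensteinIdeal p := rfl

theorem ker_piL : RingHom.ker (piL p) = RingHom.ker (actL p) := by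
  ext t
  rw [RingHom.mem_ker, RingHom.mem_ker, ← coe_piL]
  exact ⟨fun h => by rw [h]; rfl, fun h => Subtype.ext h⟩

theorem isEisSystem_eisL : IsEisSystem p (eisL p) where
  hT ℓ hℓ := by
    have h : ¬ (ℓ : ℕ) ∣ p := fun hd =>
      hℓ ((Nat.prime_dvd_prime_iff_eq ℓ.2 (Fact.out : p.Prime)).mp hd)
    simp [eisL, eisensteinSystem_of_not_dvd h]
  hU ℓ hℓ := by
    have h : (ℓ : ℕ) ∣ p := hℓ ▸ dvd_rfl
    simp [eisL, eisensteinSystem_of_dvd h]

/-- the integer `k`-th coefficient of an element of the integral lattice -/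
noncomputable def aZfun (k : ℕ) (f : ↥(intLattice p 2)) : ℤ :=
  Classical.choose ((Fermat.Agent.S49.mem_intLattice_iff f.1).mp f.2 k)

theorem aZfun_spec (k : ℕ) (f : ↥(intLattice p 2)) :
    ((aZfun p k f : ℤ) : ℂ) = qCoeff ⇑f.1 k :=
  (Classical.choose_spec ((Fermat.Agent.S49.mem_intLattice_iff f.1).mp f.2 k)).symm

/-- the integer `k`-th coefficient, as a linear functional -/
noncomputable def aZ (k : ℕ) : ↥(intLattice p 2) →ₗ[ℤ] ℤ where
  toFun := aZfun p k
  map_add' f g := by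
    have : ((aZfun p k (f + g) : ℤ) : ℂ) = ((aZfun p k f + aZfun p k g : ℤ) : ℂ) := by
      rw [Int.cast_add, aZfun_spec, aZfun_spec, aZfun_spec]
      exact Fermat.Agent.S49.qCoeff_add f.1 g.1 k
    exact_mod_cast this
  map_smul' c f := by
    have : ((aZfun p k (c • f) : ℤ) : ℂ) = ((c * aZfun p k f : ℤ) : ℂ) := by
      rw [Int.cast_mul, aZfun_spec, aZfun_spec]
      exact Fermat.Agent.S49.qCoeff_zsmul c f.1 k
    have h2 : aZfun p k (c • f) = c * aZfun p k f := by exact_mod_cast this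
    simpa using h2

theorem aZ_spec (k : ℕ) (f : ↥(intLattice p 2)) : ((aZ p k f : ℤ) : ℂ) = qCoeff ⇑f.1 k :=
  aZfun_spec p k f

theorem aZ_eq_iff (k : ℕ) (f : ↥(intLattice p 2)) (z : ℤ) :
    aZ p k f = z ↔ qCoeff ⇑f.1 k = (z : ℂ) := by
  rw [← aZ_spec]
  exact Int.cast_inj.symm

theorem isHeckeLattice_intLattice : IsHeckeLattice p (actL p) (aZ p) where
  hT ℓ hℓ f k := by
    have h : ¬ (ℓ : ℕ) ∣ p := fun hd =>
      hℓ ((Nat.prime_dvd_prime_iff_eq ℓ.2 (Fact.out : p.Prime)).mp hd)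
    have e : ((actL p (MvPolynomial.X ℓ) f : ↥(intLattice p 2)) : CuspForm (Gamma0 p) 2) =
        heckeTLin 2 ℓ.2 h f.1 := by
      rw [coe_actL_apply]
      have := heckeEvalForms_heckeGen_of_not_dvd (N := p) (k := 2) h
      rw [heckeGen] at this
      rw [this]
      rfl
    rw [aZ_eq_iff, e, Fermat.Agent.S49.qCoeff_heckeTLin]
    push_cast
    rw [aZ_spec]
    split_ifs
    · rw [aZ_spec]
    · simp
  hU ℓ hℓ f k := by
    have h : (ℓ : ℕ) ∣ p := hℓ ▸ dvd_rfl
    have e : ((actL p (MvPolynomial.X ℓ) f : ↥(intLattice p 2)) : CuspForm (Gamma0 p) 2) =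
        heckeULin 2 h f.1 := by
      rw [coe_actL_apply]
      have := heckeEvalForms_heckeGen_of_dvd (N := p) (k := 2) h
      rw [heckeGen] at this
      rw [this]
      rfl
    rw [aZ_eq_iff, e, Fermat.Agent.S49.qCoeff_heckeULin ℓ.2, aZ_spec]
  inj f hf := by
    refine Subtype.ext (Fermat.Agent.S49.eq_zero_of_qCoeff fun k => ?_)
    rcases Nat.eq_zero_or_pos k with rfl | hk
    · exact Fermat.Agent.S49.qCoeff_zero_index f.1
    · rw [← aZ_spec, hf k hk, Int.cast_zero]
  sat N hN f hf := by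
    have hNC : (N : ℂ) ≠ 0 := Nat.cast_ne_zero.mpr hN
    have hg : ((N : ℂ)⁻¹ • f.1) ∈ intLattice p 2 := by
      rw [Fermat.Agent.S49.mem_intLattice_iff]
      intro k
      rcases Nat.eq_zero_or_pos k with rfl | hk
      · exact ⟨0, by rw [Fermat.Agent.S49.qCoeff_zero_index, Int.cast_zero]⟩
      · obtain ⟨w, hw⟩ := hf k hk
        refine ⟨w, ?_⟩
        rw [Fermat.Agent.S49.qCoeff_smul, ← aZ_spec, hw]
        push_cast
        field_simp
    refine ⟨⟨_, hg⟩, Subtype.ext ?_⟩
    change f.1 = (N : ℤ) • ((N : ℂ)⁻¹ • f.1)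
    have h1 : ((N : ℤ) • ((N : ℂ)⁻¹ • f.1) : CuspForm (Gamma0 p) 2) =
        (N : ℂ) • ((N : ℂ)⁻¹ • f.1) := by
      ext z
      simp
    rw [h1, smul_smul, mul_inv_cancel₀ hNC, one_smul]

/-- **Reduction of S16, cohomological form of the lower bound.** -/
theorem result_of_bounds' (n : ℕ)
    (lower : ∀ t : HeckeAlg, actL p t = 0 → (n : ℤ) ∣ eisL p t)
    (upper : ∀ (m : ℕ) (f : ↥(intLattice p 2)),
      (∀ k, 1 ≤ k → (m : ℤ) ∣ aZ p k f - sigmaP p k) → m ∣ n) :
    Nat.card (↥(heckeLatticeAlgebra p ∅) ⧸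
        Ideal.map ((latticeRestrictHom p ∅).toRingHom.comp (heckeEvalForms p 2))
          (eisensteinIdeal p)) = n := by
  have := intLattice.moduleFinite p
  have := intLattice.moduleFree p
  have h := natCard_quotient_map_ker_eq (piL p) (eisL p) (piL_surjective p) (eisL_surjective p)
  rw [ker_piL, (isHeckeLattice_intLattice p).map_eis_ker_eq Fact.out (isEisSystem_eisL p) n
    lower upper, natCard_int_quotient_span] at h
  exact h

end Fermat.Agent.S16.R
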