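/-
S16, layer R, final part: the frozen statement S16 follows from the lower bound (a cusp form
congruent to a unit multiple of the Eisenstein series modulo `n`, or the cohomological form
`phi p t = 0 → n ∣ eis p t`) and the upper bound (claim A), both only needed for `5 ≤ p`.
Stated with the common definitions of `Fermat.Agent.S16.Defs`.
-/
import Mathlib
import Fermat.Agent.S16.Defs
import Fermat.Agent.S16.SmallP
import Fermat.Agent.S16.R.Concrete

set_option autoImplicit false

open CuspForm ModularCurve ModularFormClass CongruenceSubgroup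

namespace Fermat.Agent.S16.R

theorem sigmaP_eq_sigP (p k : ℕ) : sigmaP p k = (sigP p k : ℤ) := by
  simp [sigmaP, sigP]

variable (p : ℕ) [Fact p.Prime]

theorem piL_eq_phi : piL p = phi p := rfl

theorem eisL_eq_eis : eisL p = eis p := rfl

theorem actL_eq_zero_iff (t : HeckeAlg) : actL p t = 0 ↔ phi p t = 0 := by
  rw [← piL_eq_phi, ← RingHom.mem_ker, ← RingHom.mem_ker, ker_piL]

/-- the statement of S16 with a general number `n` in place of the Eisenstein numerator -/
def CardEq (n : ℕ) : Prop :=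
  Nat.card (↥(heckeLatticeAlgebra p ∅) ⧸
      Ideal.map ((latticeRestrictHom p ∅).toRingHom.comp (heckeEvalForms p 2))
        (eisensteinIdeal p)) = n

/-- the shape of the lower bound delivered by the theta series route -/
def LowerForm (n : ℕ) : Prop :=
  ∃ f ∈ CuspForm.intLattice p 2, ∃ c : ℤ, IsCoprime c (n : ℤ) ∧
    ∀ k, 1 ≤ k → ∃ a : ℤ, ModularFormClass.qCoeff f k = a ∧ (n : ℤ) ∣ a - c * sigP p k

/-- the shape of the lower bound delivered by the cohomological route -/
def LowerCoh (n : ℕ) : Prop :=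
  ∀ t : HeckeAlg, phi p t = 0 → (n : ℤ) ∣ eis p t

/-- the shape of the upper bound (claim A) -/
def UpperForm (n : ℕ) : Prop :=
  ∀ (m : ℕ) (f : CuspForm (Gamma0 p) 2),
    (∀ k, 1 ≤ k → ∃ a : ℤ, ModularFormClass.qCoeff f k = a ∧ (m : ℤ) ∣ a - sigP p k) → m ∣ n

theorem lowerCoh_of_lowerForm {n : ℕ} (h : LowerForm p n) : LowerCoh p n := by
  obtain ⟨f, hf, c, hc, hk⟩ := h
  intro t ht
  refine (isHeckeLattice_intLattice p).dvd_eis_of_act_eq_zero Fact.out (isEisSystem_eisL p) n c hc
    ⟨f, hf⟩ (fun k hk1 => ?_) t ((actL_eq_zero_iff p t).mpr ht)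
  obtain ⟨a, ha, hd⟩ := hk k hk1
  rw [(aZ_eq_iff p k ⟨f, hf⟩ a).mpr ha, sigmaP_eq_sigP]
  exact hd

theorem cardEq_of_lowerCoh_of_upperForm {n : ℕ} (lower : LowerCoh p n) (upper : UpperForm p n) :
    CardEq p n := by
  refine result_of_bounds' p n (fun t ht => lower t ((actL_eq_zero_iff p t).mp ht)) ?_
  intro m f hf
  refine upper m f.1 fun k hk => ⟨aZ p k f, (aZ_spec p k f).symm, ?_⟩
  rw [← sigmaP_eq_sigP]
  exact hf k hk

theorem cardEq_of_lowerForm_of_upperForm {n : ℕ} (lower : LowerForm p n) (upper : UpperForm p n) :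
    CardEq p n :=
  cardEq_of_lowerCoh_of_upperForm p (lowerCoh_of_lowerForm p lower) upper

theorem eisensteinNumerator_of_le_three (hp : p ≤ 3) : eisensteinNumerator p = 1 := by
  have h2 := (Fact.out : p.Prime).two_le
  interval_cases p <;> decide

theorem cardEq_of_le_three (hp : p ≤ 3) : CardEq p (eisensteinNumerator p) := by
  rw [eisensteinNumerator_of_le_three p hp]
  refine cardEq_of_lowerCoh_of_upperForm p (fun t _ => by simp) ?_
  intro m f hf
  obtain ⟨a, ha, hd⟩ := hf 1 le_rfl
  have hf0 : f = 0 := cuspForm_eq_zero_of_le_three Fact.out hp f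
  rw [hf0, Fermat.Agent.S49.qCoeff_zero_form] at ha
  have ha0 : a = 0 := by exact_mod_cast ha.symm
  have h1 : sigP p 1 = 1 := by
    have := sigmaP_one (Fact.out : p.Prime)
    rw [sigmaP_eq_sigP] at this
    exact_mod_cast this
  rw [ha0, h1, zero_sub, dvd_neg] at hd
  exact_mod_cast hd

/-- **Final reduction of S16 (theta route).** -/
theorem result_of_bounds
    (lower : 5 ≤ p → ∃ f ∈ CuspForm.intLattice p 2, ∃ c : ℤ,
      IsCoprime c (eisensteinNumerator p : ℤ) ∧
      ∀ k, 1 ≤ k → ∃ a : ℤ, ModularFormClass.qCoeff f k = a ∧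
        (eisensteinNumerator p : ℤ) ∣ a - c * sigP p k)
    (upper : 5 ≤ p → ∀ (m : ℕ) (f : CuspForm (Gamma0 p) 2),
      (∀ k, 1 ≤ k → ∃ a : ℤ, ModularFormClass.qCoeff f k = a ∧ (m : ℤ) ∣ a - sigP p k) →
        m ∣ eisensteinNumerator p) :
    Nat.card (↥(heckeLatticeAlgebra p ∅) ⧸
        Ideal.map ((latticeRestrictHom p ∅).toRingHom.comp (heckeEvalForms p 2))
          (eisensteinIdeal p)) = eisensteinNumerator p := by
  by_cases hp : p ≤ 3
  · exact cardEq_of_le_three p hp
  · have h5 : 5 ≤ p := by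
      have h4 : p ≠ 4 := by
        rintro rfl
        exact absurd (Fact.out : (4 : ℕ).Prime) (by decide)
      omega
    exact cardEq_of_lowerForm_of_upperForm p (lower h5) (upper h5)

/-- **Final reduction of S16 (cohomological route for the lower bound).** -/
theorem result_of_bounds_coh
    (lower : 5 ≤ p → ∀ t : HeckeAlg, phi p t = 0 → (eisensteinNumerator p : ℤ) ∣ eis p t)
    (upper : 5 ≤ p → ∀ (m : ℕ) (f : CuspForm (Gamma0 p) 2),
      (∀ k, 1 ≤ k → ∃ a : ℤ, ModularFormClass.qCoeff f k = a ∧ (m : ℤ) ∣ a - sigP p k) →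
        m ∣ eisensteinNumerator p) :
    Nat.card (↥(heckeLatticeAlgebra p ∅) ⧸
        Ideal.map ((latticeRestrictHom p ∅).toRingHom.comp (heckeEvalForms p 2))
          (eisensteinIdeal p)) = eisensteinNumerator p := by
  by_cases hp : p ≤ 3
  · exact cardEq_of_le_three p hp
  · have h5 : 5 ≤ p := by
      have h4 : p ≠ 4 := by
        rintro rfl
        exact absurd (Fact.out : (4 : ℕ).Prime) (by decide)
      omega
    exact cardEq_of_lowerCoh_of_upperForm p (lower h5) (upper h5)

end Fermat.Agent.S16.R
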